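/-
S55 / 46-S1 (P6), TRANSPORT half (helper82), generic part.

`π : G →* Γ` onto a finite group, `A : Rep k G` with coordinates `co : CoindCoord π A`
(`A = k[G/U]`), a finite family of "local" groups `r v : H v →* G` (level-continuous).  Via
helper32's Shapiro equivalences

  `𝒰.H2 A ≃ (kerLevels 𝒰 hker).H2 k`,      `(𝒱 v).H2 (res (r v) A) ≃ ((τ v).R → (kerLevels (𝒱 v) _).H2 k)`

and the Mackey formula, the total localisation map `x ↦ ((hr v).res₂ A x)_v` corresponds to the
total restriction map of the kernel level along the conjugated embeddings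
`conjKer π (r v) (t v ρ)`, indexed by `w = ⟨v, ρ⟩ : Σ v, (τ v).R`.  Hence the two maps have ranges
of the same dimension and the sums of the dimensions of the local factors agree: the statement
(P6) for `A` is equivalent to the same statement at the kernel level with trivial coefficients.
-/
import Fermat.Agent.S55.ShapiroLevel32.Mackey

set_option autoImplicit false
set_option linter.unusedSectionVars false

universe u

open CategoryTheory groupCohomology Module

namespace Fermat.Agent.S55.P6Transport82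

open Fermat.Agent.S55.Profin15 Fermat.Agent.S55.ShapiroLevel32

/-! ### Linear algebra -/

section LinAlg

variable {k : Type*} [Field k]

/-- `finrank (ι → M) = ∑ _ : ι, finrank M`, with no finiteness assumption on `M`. -/
lemma finrank_fun_eq_sum {ι : Type*} [Fintype ι] (M : Type*) [AddCommGroup M] [Module k M] :
    finrank k (ι → M) = ∑ _i : ι, finrank k M := by
  by_cases h : Module.Finite k M
  · exact Module.finrank_pi_fintype k
  · rw [Module.finrank_of_not_finite h, Finset.sum_const_zero]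
    rcases isEmpty_or_nonempty ι with hι | ⟨⟨i⟩⟩
    · exact Module.finrank_zero_of_subsingleton
    · refine Module.finrank_of_not_finite fun hfin => h ?_
      exact Module.Finite.of_surjective (LinearMap.proj (R := k) (φ := fun _ : ι => M) i)
        (Function.surjective_eval i)

end LinAlg

/-! ### The generic transport -/

section Generic

variable {k G Γ : Type u} [Field k] [Group G] [Group Γ]
variable {𝒰 : LevelStr G} {π : G →* Γ}
variable {A : Rep k G}
variable {I : Type} {H : I → Type u} [∀ v, Group (H v)] {𝒱 : ∀ v, LevelStr (H v)}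
  {r : ∀ v, H v →* G}

/-- the kernel of `π.comp (r v)` contains a level -/
lemma hker' (hker : ∃ V ∈ 𝒰.levels, V ≤ π.ker)
    (hr : ∀ v, LevelStr.IsContinuous (𝒱 v) 𝒰 (r v)) (v : I) :
    ∃ V ∈ (𝒱 v).levels, V ≤ (π.comp (r v)).ker :=
  exists_le_ker_comp (hr v) hker

/-- the level cohomology of the kernel-level local group attached to `v` -/
abbrev KH2 (k : Type u) [Field k] (hker : ∃ V ∈ 𝒰.levels, V ≤ π.ker)
    (hr : ∀ v, LevelStr.IsContinuous (𝒱 v) 𝒰 (r v)) (v : I) : Type u :=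
  (kerLevels (𝒱 v) (hker' hker hr v)).H2 (triv k ↥(π.comp (r v)).ker)

/-- the total localisation map of `A` -/
noncomputable def locTot (A : Rep k G) (hr : ∀ v, LevelStr.IsContinuous (𝒱 v) 𝒰 (r v)) :
    𝒰.H2 A →ₗ[k] ∀ v, (𝒱 v).H2 (Rep.res (r v) A) :=
  LinearMap.pi fun v => (hr v).res₂ A

/-- the total restriction map at the kernel level, along the conjugated embeddings -/
noncomputable def kerTot (k : Type u) [Field k] (hker : ∃ V ∈ 𝒰.levels, V ≤ π.ker)
    (hr : ∀ v, LevelStr.IsContinuous (𝒱 v) 𝒰 (r v))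
    (τ : ∀ v, OrbSect (π.comp (r v))) (t : ∀ v, (τ v).R → G) :
    (kerLevels 𝒰 hker).H2 (triv k ↥π.ker) →ₗ[k] ∀ w : Σ v, (τ v).R, KH2 k hker hr w.1 :=
  LinearMap.pi fun w =>
    trivRes₂ k (isContinuous_conjKer (hr w.1) hker (hker' hker hr w.1) (t w.1 w.2))

/-- `kerTot` is literally the product of the `Profin15` restriction maps `res₂` of the trivial
module along the conjugated embeddings. -/
lemma kerTot_eq_pi_res₂ (k : Type u) [Field k] (hker : ∃ V ∈ 𝒰.levels, V ≤ π.ker)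
    (hr : ∀ v, LevelStr.IsContinuous (𝒱 v) 𝒰 (r v))
    (τ : ∀ v, OrbSect (π.comp (r v))) (t : ∀ v, (τ v).R → G) :
    kerTot k hker hr τ t = LinearMap.pi fun w : Σ v, (τ v).R =>
      (isContinuous_conjKer (hr w.1) hker (hker' hker hr w.1) (t w.1 w.2)).res₂
        (triv k ↥π.ker) := rfl

lemma kerTot_apply (k : Type u) [Field k] (hker : ∃ V ∈ 𝒰.levels, V ≤ π.ker)
    (hr : ∀ v, LevelStr.IsContinuous (𝒱 v) 𝒰 (r v))
    (τ : ∀ v, OrbSect (π.comp (r v))) (t : ∀ v, (τ v).R → G)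
    (x : (kerLevels 𝒰 hker).H2 (triv k ↥π.ker)) (w : Σ v, (τ v).R) :
    kerTot k hker hr τ t x w =
      (isContinuous_conjKer (hr w.1) hker (hker' hker hr w.1) (t w.1 w.2)).res₂
        (triv k ↥π.ker) x := rfl

/-- the comparison of the targets: all coordinates at all orbit representatives -/
noncomputable def orbTot [Finite Γ] (hker : ∃ V ∈ 𝒰.levels, V ≤ π.ker) (co : CoindCoord π A)
    (hr : ∀ v, LevelStr.IsContinuous (𝒱 v) 𝒰 (r v)) (τ : ∀ v, OrbSect (π.comp (r v))) :
    (∀ v, (𝒱 v).H2 (Rep.res (r v) A)) →ₗ[k] ∀ w : Σ v, (τ v).R, KH2 k hker hr w.1 :=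
  LinearMap.pi fun w =>
    (LinearMap.proj w.2).comp
      ((orbitShapiroH2 (𝒱 w.1) (hker' hker hr w.1) (co.res (r w.1)) (τ w.1)).toLinearMap.comp
        (LinearMap.proj w.1))

lemma orbTot_apply [Finite Γ] (hker : ∃ V ∈ 𝒰.levels, V ≤ π.ker) (co : CoindCoord π A)
    (hr : ∀ v, LevelStr.IsContinuous (𝒱 v) 𝒰 (r v)) (τ : ∀ v, OrbSect (π.comp (r v)))
    (y : ∀ v, (𝒱 v).H2 (Rep.res (r v) A)) (w : Σ v, (τ v).R) :
    orbTot hker co hr τ y w =
      shH2 (𝒱 w.1) (hker' hker hr w.1) ((co.res (r w.1)).shift (w.2 : Γ)) (y w.1) := rfl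

lemma orbTot_injective [Finite Γ] (hker : ∃ V ∈ 𝒰.levels, V ≤ π.ker) (co : CoindCoord π A)
    (hr : ∀ v, LevelStr.IsContinuous (𝒱 v) 𝒰 (r v)) (τ : ∀ v, OrbSect (π.comp (r v))) :
    Function.Injective (orbTot hker co hr τ) := by
  refine (injective_iff_map_eq_zero _).2 fun y hy => ?_
  funext v
  apply (orbitShapiroH2 (𝒱 v) (hker' hker hr v) (co.res (r v)) (τ v)).injective
  rw [Pi.zero_apply, map_zero]
  funext ρ
  exact congrFun hy ⟨v, ρ⟩

/-- **Mackey**: the square commutes. -/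
lemma orbTot_locTot [Finite Γ] (hker : ∃ V ∈ 𝒰.levels, V ≤ π.ker) (co : CoindCoord π A)
    (σ : Sect π) (hr : ∀ v, LevelStr.IsContinuous (𝒱 v) 𝒰 (r v))
    (τ : ∀ v, OrbSect (π.comp (r v))) (t : ∀ v, (τ v).R → G)
    (ht : ∀ v (ρ : (τ v).R), π (t v ρ) = (ρ : Γ)) (x : 𝒰.H2 A) :
    orbTot hker co hr τ (locTot A hr x) = kerTot k hker hr τ t (shapiroH2 𝒰 hker co σ x) := by
  funext w
  rw [orbTot_apply]
  show shH2 (𝒱 w.1) (hker' hker hr w.1) ((co.res (r w.1)).shift (w.2 : Γ))
      ((hr w.1).res₂ A x) = _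
  rw [← ht w.1 w.2, mackey₂ co (hr w.1) hker (hker' hker hr w.1) (t w.1 w.2) x]
  rfl

/-- the ranges of the two total maps have the same dimension -/
theorem finrank_range_locTot [Finite Γ] (hker : ∃ V ∈ 𝒰.levels, V ≤ π.ker)
    (co : CoindCoord π A) (σ : Sect π) (hr : ∀ v, LevelStr.IsContinuous (𝒱 v) 𝒰 (r v))
    (τ : ∀ v, OrbSect (π.comp (r v))) (t : ∀ v, (τ v).R → G)
    (ht : ∀ v (ρ : (τ v).R), π (t v ρ) = (ρ : Γ)) :
    finrank k (LinearMap.range (locTot (𝒱 := 𝒱) (r := r) A hr)) =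
      finrank k (LinearMap.range (kerTot k hker hr τ t)) := by
  have hcomp : (orbTot hker co hr τ).comp (locTot (𝒱 := 𝒱) (r := r) A hr) =
      (kerTot k hker hr τ t).comp (shapiroH2 𝒰 hker co σ).toLinearMap :=
    LinearMap.ext (orbTot_locTot hker co σ hr τ t ht)
  have h1 : (LinearMap.range (locTot (𝒱 := 𝒱) (r := r) A hr)).map (orbTot hker co hr τ) =
      LinearMap.range (kerTot k hker hr τ t) := by
    rw [← LinearMap.range_comp, hcomp, LinearEquiv.range_comp]
  rw [← h1]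
  exact (Submodule.equivMapOfInjective (orbTot hker co hr τ) (orbTot_injective hker co hr τ)
    (LinearMap.range (locTot (𝒱 := 𝒱) (r := r) A hr))).finrank_eq

/-- the sums of the local dimensions agree -/
theorem sum_finrank_local [Finite Γ] [Fintype I] (hker : ∃ V ∈ 𝒰.levels, V ≤ π.ker)
    (co : CoindCoord π A) (hr : ∀ v, LevelStr.IsContinuous (𝒱 v) 𝒰 (r v))
    (τ : ∀ v, OrbSect (π.comp (r v))) [∀ v, Fintype (τ v).R] :
    ∑ v, finrank k ((𝒱 v).H2 (Rep.res (r v) A)) =
      ∑ w : Σ v, (τ v).R, finrank k (KH2 k hker hr w.1) := by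
  rw [Fintype.sum_sigma]
  refine Finset.sum_congr rfl fun v _ => ?_
  rw [(orbitShapiroH2 (𝒱 v) (hker' hker hr v) (co.res (r v)) (τ v)).finrank_eq,
    finrank_fun_eq_sum]

/-- **Generic transport of (P6).** -/
theorem cokerDim_of_kernel_level [Finite Γ] [Fintype I] (hker : ∃ V ∈ 𝒰.levels, V ≤ π.ker)
    (co : CoindCoord π A) (σ : Sect π) (hr : ∀ v, LevelStr.IsContinuous (𝒱 v) 𝒰 (r v))
    (τ : ∀ v, OrbSect (π.comp (r v))) [∀ v, Fintype (τ v).R] (t : ∀ v, (τ v).R → G)
    (ht : ∀ v (ρ : (τ v).R), π (t v ρ) = (ρ : Γ))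
    (hfin : Module.Finite k ((kerLevels 𝒰 hker).H2 (triv k ↥π.ker)))
    (hle : ∑ w : Σ v, (τ v).R, finrank k (KH2 k hker hr w.1) ≤
      finrank k (LinearMap.range (kerTot k hker hr τ t)) + 1) :
    Module.Finite k (𝒰.H2 A) ∧
      ∑ v, finrank k ((𝒱 v).H2 (Rep.res (r v) A)) ≤
        finrank k (LinearMap.range (locTot (𝒱 := 𝒱) (r := r) A hr)) + 1 := by
  refine ⟨Module.Finite.equiv (shapiroH2 𝒰 hker co σ).symm, ?_⟩
  rw [sum_finrank_local hker co hr τ, finrank_range_locTot hker co σ hr τ t ht]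
  exact hle

end Generic

end Fermat.Agent.S55.P6Transport82
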