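/-
S55 / 46-S1 (P6), TRANSPORT half (helper82), global instantiation.

`Contract34.GlobalCokerDim p S` (P6, literally) and its level form `Profin15.Plug.GlobalCokerDimL`
from the SAME statement at the kernel level `U = ker (G_ℚ → G_ℚ/U)` with trivial coefficients
(`KernelCokerDim`): finiteness of `H²(U-levels; 𝔽_p)` and

  `∑_{w = (q, ρ)} dim H²(N_q-levels; 𝔽_p) ≤ dim range (x ↦ (res along conjKer r_q t_{q,ρ})_w) + 1`,

where `N_q = r_q⁻¹(U)`, `ρ` runs over representatives of the orbits of the local group at `q` on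
`G_ℚ/U` (i.e. over the places of the fixed field of `U` above `q`) and `t_{q,ρ}` lifts `ρ`.
-/
import Fermat.Agent.S55.P6Transport82.Generic
import Fermat.Agent.S55.ShapiroLevel32.Perm
import Fermat.Agent.S55.Profin15.Contract

set_option autoImplicit false
set_option linter.unusedSectionVars false
set_option linter.style.haveILetI false

open CategoryTheory groupCohomology Module ExtCitation

namespace Fermat.Agent.S55.P6Transport82

open Fermat.Agent.S55.Profin15 Fermat.Agent.S55.ShapiroLevel32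
open Fermat.Agent.Lib.FrobeniusExists (Qb GQ)
open Fermat.Agent.S55.Contract34

variable (p : ℕ) [Fact p.Prime] (S : Finset Nat.Primes)

/-- the local-to-global maps at the primes of `S` -/
noncomputable abbrev rS (q : ↥S) : primeLocalGaloisGroup q.1 →* GQ := primeLocalToGlobal q.1

lemma hrS (q : ↥S) :
    LevelStr.IsContinuous (pullLevels (rS S q)) (globalLevels S) (rS S q) :=
  isContinuous_pullLevels S (primeLocalToGlobal q.1)

variable {S} in
lemma hker_mk {U : Subgroup GQ} [U.Normal] (hU : U ∈ (globalLevels S).levels) :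
    ∃ V ∈ (globalLevels S).levels, V ≤ (QuotientGroup.mk' U).ker :=
  ⟨U, hU, by rw [QuotientGroup.ker_mk']⟩

/-- **(P6) at ONE level, with chosen orbit data.** -/
theorem globalCokerDimL_at_level {U : Subgroup GQ} [U.Normal]
    (hU : U ∈ (globalLevels S).levels)
    (τ : ∀ q : ↥S, OrbSect ((QuotientGroup.mk' U).comp (rS S q))) [∀ q, Fintype (τ q).R]
    (t : ∀ q : ↥S, (τ q).R → GQ)
    (ht : ∀ (q : ↥S) (ρ : (τ q).R), QuotientGroup.mk' U (t q ρ) = (ρ : GQ ⧸ U))
    (hfin : Module.Finite (ZMod p) ((kerLevels (globalLevels S) (hker_mk hU)).H2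
      (triv (ZMod p) ↥(QuotientGroup.mk' U).ker)))
    (hle : ∑ w : Σ q : ↥S, (τ q).R, finrank (ZMod p) (KH2 (ZMod p) (hker_mk hU) (hrS S) w.1) ≤
      finrank (ZMod p) (LinearMap.range (kerTot (ZMod p) (hker_mk hU) (hrS S) τ t)) + 1) :
    Module.Finite (ZMod p) ((globalLevels S).H2 (perm p U)) ∧
    ∑ q : ↥S, finrank (ZMod p)
        ((pullLevels (primeLocalToGlobal q.1)).H2
          (Rep.res (primeLocalToGlobal q.1) (perm p U))) ≤
      finrank (ZMod p) (LinearMap.range (Plug.locTotal p S (perm p U))) + 1 := by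
  haveI := (globalLevels S).finiteIndex U hU
  haveI : Finite (GQ ⧸ U) := Subgroup.finite_quotient_of_finiteIndex
  obtain ⟨σ⟩ := exists_sect (QuotientGroup.mk'_surjective U)
  exact cokerDim_of_kernel_level (A := perm p U) (hker_mk hU) (permCoord (k := ZMod p) U) σ
    (hrS S) τ t ht hfin hle

/-- **The kernel-level form of (P6)**: the producer's target (helper67, `S1_67/P6Core` at
`(𝒩, f w) := (kerLevels (globalLevels S) _, conjKer (mk' U) r_q t_{q,ρ})`, `A := triv`). -/
def KernelCokerDim : Prop :=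
  ∀ (U : Subgroup GQ) [U.Normal] (hU : U ∈ (globalLevels S).levels),
    (∀ s ∈ U, (mu p).ρ s = 1) →
    ∀ (τ : ∀ q : ↥S, OrbSect ((QuotientGroup.mk' U).comp (rS S q))) [∀ q, Fintype (τ q).R]
      (t : ∀ q : ↥S, (τ q).R → GQ),
      (∀ (q : ↥S) (ρ : (τ q).R), QuotientGroup.mk' U (t q ρ) = (ρ : GQ ⧸ U)) →
      Module.Finite (ZMod p) ((kerLevels (globalLevels S) (hker_mk hU)).H2
        (triv (ZMod p) ↥(QuotientGroup.mk' U).ker)) ∧
      ∑ w : Σ q : ↥S, (τ q).R, finrank (ZMod p) (KH2 (ZMod p) (hker_mk hU) (hrS S) w.1) ≤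
        finrank (ZMod p) (LinearMap.range (kerTot (ZMod p) (hker_mk hU) (hrS S) τ t)) + 1

/-- (P6) in level cohomology from the kernel-level form. -/
theorem globalCokerDimL_of_kernel (h : KernelCokerDim p S) : Plug.GlobalCokerDimL p S := by
  intro U hU hmu
  haveI hUn : U.Normal := (globalLevels S).normal U hU
  haveI := (globalLevels S).finiteIndex U hU
  haveI : Finite (GQ ⧸ U) := Subgroup.finite_quotient_of_finiteIndex
  let τ : ∀ q : ↥S, OrbSect ((QuotientGroup.mk' U).comp (rS S q)) := fun q =>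
    Classical.choice (exists_orbSect _)
  haveI : ∀ q, Fintype (τ q).R := fun q => Fintype.ofFinite _
  let t : ∀ q : ↥S, (τ q).R → GQ := fun q ρ => Quotient.out (ρ : GQ ⧸ U)
  have ht : ∀ (q : ↥S) (ρ : (τ q).R), QuotientGroup.mk' U (t q ρ) = (ρ : GQ ⧸ U) :=
    fun q ρ => QuotientGroup.out_eq' _
  obtain ⟨hfin, hle⟩ := h U hU hmu τ t ht
  exact globalCokerDimL_at_level p S hU τ t ht hfin hle

/-- **(P6) `Contract34.GlobalCokerDim` LITERALLY from the kernel-level form.** -/
theorem globalCokerDim_of_kernel (h : KernelCokerDim p S) : Contract34.GlobalCokerDim p S :=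
  (Plug.globalCokerDim_iff p S).2 (globalCokerDimL_of_kernel p S h)

end Fermat.Agent.S55.P6Transport82
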